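import Fermat.Agent.S59.LoSqC.H876.Closed
import Fermat.Agent.S59.LoSqC.H433.WallSplit

/-!
# S59 moonshot, cell (C) LO-SQ: the mountain is only needed OVER THE INERTIA FIELD (helper876)

The frozen leaf `LoSqC.LeafRealize` quantifies over ALL unramified good levels `E`
(`Mod3.Leaf`).  Mathematically `Eng.Unramified P E q` forces `E = ℚ̄^{I_P}`, but no Lean proof of
that exists (it needs "henselian ⟹ the valuation extends uniquely"), whereas every J-form
input of the interior (counts of `J₀(M q)[p ^ n]`, TAME-CYC, TAU, DESC = `S36.H756`) speaks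
about `I_P`-fixed classes, i.e. about `E = fixedField I_P` LITERALLY.

This file shows that NOTHING above the mountain needs any other `E`:

* `LeafRealizeI`     : `LeafRealize` at `E = inertiaFldC P` only;
* `LeafRealizeHardI` : the same with `5 ≤ q` and `p ∣ q ^ 2 - 1` (helper433's hard case);
* `levelWallAt_of_realizeHardI876` : `LeafRealizeHardI ⟹ LevelWallAt P (inertiaFldC P) M q p`;
* `newOld_of_realizeHardI876     : LeafRealizeHardI → NewOldStatement`;
* `coreSqNeat_of_realizeHardI876 : LeafRealizeHardI → CoreSqNeatStatement`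
  (all other leaves plugged: `H987.newUnits`, `H865.leafCtx865`, `H305.slopeJ305`, `descW`,
  `H586.alg3C`).

So the interior may fix `E := inertiaFldC P` (Galois group of `ℚ̄ / E` = `I_P` by definition)
from the start.
-/

set_option autoImplicit false
set_option linter.style.haveILetI false
set_option linter.unusedSectionVars false
set_option linter.unusedVariables false
set_option synthInstance.maxHeartbeats 400000
set_option maxHeartbeats 1600000

noncomputable section

namespace Fermat.Agent.S59.LoSqC.H876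

open ModularCurve AlgebraicCurve
open Fermat.Agent.S36 Fermat.Agent.S36.Eng
open Fermat.Agent.S59.LoSqC

/-- **REALIZE over the inertia field**: `LoSqC.LeafRealize` at `E = inertiaFldC P` only. -/
def LeafRealizeI : Prop :=
  ∀ (P : ValuationSubring A2.Qb) (M q : ℕ) [NeZero M] [NeZero q] [NeZero (M * q)]
    (w : A2.RE P (inertiaFldC P)), Mod3.Std P (inertiaFldC P) M q w →
    ∀ (V₁' V₂' : ValuationSubring (A2.Mod.FE (inertiaFldC P) (M * q)))
      (V₁ V₂ V₃ : ValuationSubring (A2.Mod.FE (inertiaFldC P) (M * q * q)))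
      (W' : A2.Mod.FE (inertiaFldC P) (M * q) ≃ₐ[inertiaFldC P]
        A2.Mod.FE (inertiaFldC P) (M * q))
      (W : A2.Mod.FE (inertiaFldC P) (M * q * q) ≃ₐ[inertiaFldC P]
        A2.Mod.FE (inertiaFldC P) (M * q * q)),
      Mod3.Objs P (inertiaFldC P) M q V₁' V₂' V₁ V₂ V₃ W' W →
      q ≠ 2 → ∀ p : ℕ, p.Prime → p ≠ 2 → p ≠ q →
        RealizeAt (inertiaFldC P) p (A2.Mod.αE (inertiaFldC P) (M * q) q)
          (A2.Mod.βE (inertiaFldC P) (M * q) q) V₁ V₂ V₃

/-- **REALIZE over the inertia field, hard case only** (`5 ≤ q`, `p ∣ q² - 1`): the weakest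
form of the mountain that closes cell (C). -/
def LeafRealizeHardI : Prop :=
  ∀ (P : ValuationSubring A2.Qb) (M q : ℕ) [NeZero M] [NeZero q] [NeZero (M * q)]
    (w : A2.RE P (inertiaFldC P)), Mod3.Std P (inertiaFldC P) M q w →
    ∀ (V₁' V₂' : ValuationSubring (A2.Mod.FE (inertiaFldC P) (M * q)))
      (V₁ V₂ V₃ : ValuationSubring (A2.Mod.FE (inertiaFldC P) (M * q * q)))
      (W' : A2.Mod.FE (inertiaFldC P) (M * q) ≃ₐ[inertiaFldC P]
        A2.Mod.FE (inertiaFldC P) (M * q))
      (W : A2.Mod.FE (inertiaFldC P) (M * q * q) ≃ₐ[inertiaFldC P]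
        A2.Mod.FE (inertiaFldC P) (M * q * q)),
      Mod3.Objs P (inertiaFldC P) M q V₁' V₂' V₁ V₂ V₃ W' W →
      5 ≤ q → ∀ p : ℕ, p.Prime → p ≠ 2 → p ≠ q → p ∣ q ^ 2 - 1 →
        RealizeAt (inertiaFldC P) p (A2.Mod.αE (inertiaFldC P) (M * q) q)
          (A2.Mod.βE (inertiaFldC P) (M * q) q) V₁ V₂ V₃

/-- The frozen leaf implies the leaf over the inertia field. -/
theorem leafRealizeI_of_leafRealize876 (h : LeafRealize) : LeafRealizeI := by
  intro P M q _ _ _ w hS V₁' V₂' V₁ V₂ V₃ W' W hO hq2 p hp hp2 hpq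
  exact h P (inertiaFldC P) M q w hS V₁' V₂' V₁ V₂ V₃ W' W hO hq2 p hp hp2 hpq

/-- The leaf over the inertia field implies its hard case. -/
theorem leafRealizeHardI_of_leafRealizeI876 (h : LeafRealizeI) : LeafRealizeHardI := by
  intro P M q _ _ _ w hS V₁' V₂' V₁ V₂ V₃ W' W hO h5 p hp hp2 hpq _
  exact h P M q w hS V₁' V₂' V₁ V₂ V₃ W' W hO (by omega) p hp hp2 hpq

/-- helper433's hard leaf implies the hard leaf over the inertia field. -/
theorem leafRealizeHardI_of_hard876 (h : H433.LeafRealizeHard) : LeafRealizeHardI := by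
  intro P M q _ _ _ w hS V₁' V₂' V₁ V₂ V₃ W' W hO h5 p hp hp2 hpq hd
  exact h P (inertiaFldC P) M q w hS V₁' V₂' V₁ V₂ V₃ W' W hO h5 p hp hp2 hpq hd

/-- **The level wall over the inertia field** from the hard leaf over the inertia field
(pointwise replay of `H433.levelWall_of_leaves_hard`). -/
theorem levelWallAt_of_realizeHardI876 (hRe : LeafRealizeHardI)
    (P : ValuationSubring A2.Qb) (M q p : ℕ) [NeZero M] [NeZero q] [NeZero (M * q)]
    (hq : q.Prime) (hqM : ¬ q ∣ M) (hP : P.LiesOverPrime q) (hneat : NeatFor M q)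
    (hq2 : q ≠ 2) (hp : p.Prime) (hp2 : p ≠ 2) (hpq : p ≠ q) :
    LevelWallAt P (inertiaFldC P) M q p := by
  have hE : Unramified P (inertiaFldC P) q := unr876 q hq P hP
  intro w hw V₁' V₂' V₁ V₂ V₃ W' W hO f hf hdiv hα hβ hslope
  haveI : IsDiscreteValuationRing ↥(A2.RE P (inertiaFldC P)) := hE.1.dvr
  haveI : HenselianLocalRing ↥(A2.RE P (inertiaFldC P)) := hE.1.henselian
  haveI : IsAlgClosed (IsLocalRing.ResidueField ↥(A2.RE P (inertiaFldC P))) := hE.1.algClosed
  have hS : Mod3.Std P (inertiaFldC P) M q w :=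
    { q_prime := hq, q_not_dvd := hqM, lies_over := hP, unram := hE, neat := hneat, unif := hw }
  have hctx := H865.leafCtx865 P (inertiaFldC P) M q w hS V₁' V₂' V₁ V₂ V₃ W' W hO
  have hqp : ¬ q ∣ p := fun hd => hpq ((Nat.prime_dvd_prime_iff_eq hq hp).1 hd).symm
  by_cases hd : p ∣ q ^ 2 - 1
  · have h5 : 5 ≤ q := H433.five_le_of_dvd_sq_sub_one433 hp hp2 hq hq2 hd
    have hU : UnitsForm (inertiaFldC P) p V₁ V₂ V₃ f :=
      H987.newUnits (R := ↥(A2.RE P (inertiaFldC P))) (E := inertiaFldC P)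
        (F := ↥(A2.Mod.FE (inertiaFldC P) (M * q * q)))
        (F' := ↥(A2.Mod.FE (inertiaFldC P) (M * q))) w hw q hq
        (natCast_mem_maximalIdeal_RE (inertiaFldC P) hP)
        (A2.Mod.αE (inertiaFldC P) (M * q) q) (A2.Mod.βE (inertiaFldC P) (M * q) q)
        (Mod3.x3E (inertiaFldC P) M q) (A2.Mod.xE (inertiaFldC P) M q)
        V₁ V₂ V₃ V₁' V₂' hctx p hp.pos hqp f hf hα hβ
        (fun hnc => hslope (by
          by_contra hnd
          exact hnc ((Nat.Prime.coprime_iff_not_dvd hp).2 hnd)))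
    exact fromBelow_of_unitsForm
      (hRe P M q w hS V₁' V₂' V₁ V₂ V₃ W' W hO h5 p hp hp2 hpq hd) hf hdiv hU
  · obtain ⟨c, h, hh, e⟩ :=
      H586.alg3C (R := ↥(A2.RE P (inertiaFldC P))) (E := inertiaFldC P)
        (F := ↥(A2.Mod.FE (inertiaFldC P) (M * q * q)))
        (F' := ↥(A2.Mod.FE (inertiaFldC P) (M * q))) w hw q hq
        (natCast_mem_maximalIdeal_RE (inertiaFldC P) hP)
        (A2.Mod.αE (inertiaFldC P) (M * q) q) (A2.Mod.βE (inertiaFldC P) (M * q) q)
        (Mod3.x3E (inertiaFldC P) M q) (A2.Mod.xE (inertiaFldC P) M q)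
        V₁ V₂ V₃ V₁' V₂' hctx p hp.pos hqp f hf hdiv hα hβ
    exact H433.fromBelow_of_pow_eq433 (H586.alg3Const_coprime hp hd) _ _ hf hh e

/-- **NEW-OLD from the mountain over the inertia field** (hard case only). -/
theorem newOld_of_realizeHardI876 (hRe : LeafRealizeHardI) : NewOldStatement := by
  intro M q p _ _ _ hq hqM hneat hq2 hp hp2 hpq A hA
  exact descW M q p hq hqM hp hp2 hpq A hA
    (levelWallAt_of_realizeHardI876 hRe A M q p hq hqM hA hneat hq2 hp hp2 hpq)
    (fun hd => H305.slopeJ305 M q p hq hqM hneat hq2 hp hp2 hpq hd A hA)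

/-- **CORE-SQ at neat levels from the mountain over the inertia field** (hard case only). -/
theorem coreSqNeat_of_realizeHardI876 (hRe : LeafRealizeHardI) : CoreSqNeatStatement :=
  coreSqNeat_of_newOld876 (newOld_of_realizeHardI876 hRe)

/-- The same from `LeafRealizeI`. -/
theorem coreSqNeat_of_realizeI876 (hRe : LeafRealizeI) : CoreSqNeatStatement :=
  coreSqNeat_of_realizeHardI876 (leafRealizeHardI_of_leafRealizeI876 hRe)

end Fermat.Agent.S59.LoSqC.H876

end

#print axioms Fermat.Agent.S59.LoSqC.H876.coreSqNeat_of_realizeHardI876
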