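import Fermat.Agent.S59.LoSqC.H876.Plug
import Fermat.Agent.S59.LoSqC.H987.NewUnits
import Fermat.Agent.S59.LoSqC.H865.LeafCtx
import Fermat.Agent.S59.LoSqC.H305.SlopeLeaf

/-!
# S59 moonshot, cell (C) LO-SQ: everything but the mountain (helper876, second build)

With the closed leaves `H987.newUnits` (NEW-UNITS), `H865.leafCtx865` (CTX), `H305.slopeJ305`
(W-SLOPE), `H876.descW` (W-DESC) plugged into the frozen skeleton, cell (C) is
`LeafRealize → CoreSqNeatStatement` (and `LeafRealize → NewOldStatement`,
`LeafRealize → LevelWallStatement`).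
-/

set_option autoImplicit false

namespace Fermat.Agent.S59.LoSqC.H876

open Fermat.Agent.S59.LoSqC

/-- The level wall from the mountain alone. -/
theorem levelWall_of_realize876 (hRe : LeafRealize) : LevelWallStatement :=
  levelWall_of_leaves H987.newUnits H865.leafCtx865 hRe

/-- NEW-OLD from the mountain alone. -/
theorem newOld_of_realize876 (hRe : LeafRealize) : NewOldStatement :=
  newOld_of_open876 H987.newUnits H865.leafCtx865 hRe H305.slopeJ305

/-- CORE-SQ at neat levels from the mountain alone. -/
theorem coreSqNeat_of_realize876 (hRe : LeafRealize) : CoreSqNeatStatement :=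
  coreSqNeat_of_open876 H987.newUnits H865.leafCtx865 hRe H305.slopeJ305

end Fermat.Agent.S59.LoSqC.H876

#print axioms Fermat.Agent.S59.LoSqC.H876.coreSqNeat_of_realize876
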