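import Fermat.Agent.Ribet.H127.HorDesc
import Fermat.Agent.A2.T1.H669.T2
import Fermat.Agent.S36.H756.Wire
import Fermat.Agent.S18.H144.ConstF

/-!
# S59 moonshot, cell (C) LO-SQ, leaf W-DESC, part 2 (helper876): the converse of T2, and the
descended Kummer generator of a NEW inertia-fixed class

`E ⊆ ℚ̄` an intermediate field, `F_E = laurentBaseChange E F₀`, `F̄ = laurentBaseChange ℚ̄ F₀`,
`ι = A2.T1.H669.iota E F₀`.

* `ord_eq_of_valuation876`        : for a place `v` of `F̄` with uniformiser `π`: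
                                     `v.valuation f = (v.valuation π) ^ (ord_v f)`.
* `dvd_ord_iota_of_divisibleDiv876` (**T2 converse**): `A2.DivisibleDiv E m g` (on the discrete
  valuation rings of `F_E / E`) implies `m ∣ ord_v (ι g)` at every place `v` of `F̄ / ℚ̄`.
  (`B = v ∩ F_E` is trivial or a discrete valuation ring: `Ribet.H127`.)
* `WallRep876 N q m P x y₀`       : the function `y₀ ∈ F_E(N q)` (over the inertia field
  `E = ℚ̄^{I_P}`) REPRESENTS the class `x ∈ J₀(N q)`: `x = [D]`, `m D = div (ι y₀)`.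
* `exists_wallRep876`             : every `m`-torsion class `x ∈ J₀(N q)` which is `q`-new and
  fixed by `I_P` has a representative `y₀ ≠ 0` with `DivisibleDiv E m y₀` whose norms along `α`
  and `β` are constants times `m`-th powers (the hypotheses of the S36 engine `Eng.LevelInertiaAt`
  and of the wall).  Replay of `S36.H36.qNewInertiaAt_of_kummerAt` +
  `S36.H756.kummerQNewInertiaAt_of_fixedAtC` with the representative kept.
-/

set_option autoImplicit false
set_option linter.style.haveILetI false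
set_option linter.unusedSectionVars false
set_option synthInstance.maxHeartbeats 400000
set_option maxHeartbeats 1600000

noncomputable section

namespace Fermat.Agent.S59.LoSqC.H876

open AlgebraicCurve ModularCurve IntermediateField
open Fermat.Agent.A2.T1.H669 (iota Qb)
open Fermat.Agent.S29.H395 (normAlong)

section Val

variable {K F : Type*} [Field K] [Field F] [Algebra K F]

/-- The valuation of the valuation subring of a place, in terms of `ord`. -/
theorem valuation_eq_zpow_ord876 (v : Place K F) {π : v.toValuationSubring} (hπ : Irreducible π)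
    {f : F} (hf : f ≠ 0) :
    v.toValuationSubring.valuation f
      = v.toValuationSubring.valuation (π : F) ^ (v.ord f) := by
  obtain ⟨u, hu⟩ := v.exists_unit_mul_zpow hf hπ
  conv_lhs => rw [hu]
  rw [map_mul, map_zpow₀, ValuationSubring.valuation_unit, one_mul]

theorem valuation_irreducible_lt_one876 (v : Place K F) {π : v.toValuationSubring}
    (hπ : Irreducible π) : v.toValuationSubring.valuation (π : F) < 1 := by
  have h1 : ¬ IsUnit π := hπ.not_isUnit
  exact (ValuationSubring.valuation_lt_one_iff v.toValuationSubring π).1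
    (by rwa [IsLocalRing.mem_maximalIdeal, mem_nonunits_iff])

end Val

section Converse

variable (E : IntermediateField ℚ Qb) (F₀ : IntermediateField ℚ (LaurentSeries ℚ))

/-- **T2, converse.**  Divisibility of the divisor on the discrete valuation rings of `F_E / E`
implies divisibility at every place of `F̄ / ℚ̄`. -/
theorem dvd_ord_iota_of_divisibleDiv876 (m : ℕ) (g : ↥(laurentBaseChange E F₀)) (hg : g ≠ 0)
    (hdiv : Fermat.Agent.A2.DivisibleDiv E m g)
    (v : Place Qb ↥(laurentBaseChange Qb F₀)) : (m : ℤ) ∣ v.ord (iota E F₀ g) := by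
  letI := Fermat.Agent.A2.T1.H669.algFEFbar E F₀
  obtain ⟨π, hπ⟩ := IsDiscreteValuationRing.exists_irreducible v.toValuationSubring
  have hπ0 : (π : ↥(laurentBaseChange Qb F₀)) ≠ 0 := fun h => hπ.ne_zero (Subtype.ext h)
  set γ := v.toValuationSubring.valuation (π : ↥(laurentBaseChange Qb F₀)) with hγ
  have hγ0 : γ ≠ 0 := (Valuation.ne_zero_iff _).mpr hπ0
  have hγ1 : γ < 1 := valuation_irreducible_lt_one876 v hπ
  have hval : ∀ f : ↥(laurentBaseChange Qb F₀), f ≠ 0 →
      ∃ k : ℤ, v.toValuationSubring.valuation f = γ ^ k :=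
    fun f hf => ⟨v.ord f, valuation_eq_zpow_ord876 v hπ hf⟩
  have hEB : ∀ e : E, algebraMap ↥(laurentBaseChange E F₀) ↥(laurentBaseChange Qb F₀)
      (algebraMap E ↥(laurentBaseChange E F₀) e) ∈ v.toValuationSubring := by
    intro e
    have h1 : algebraMap ↥(laurentBaseChange E F₀) ↥(laurentBaseChange Qb F₀)
        (algebraMap E ↥(laurentBaseChange E F₀) e)
        = algebraMap Qb ↥(laurentBaseChange Qb F₀) (algebraMap E Qb e) :=
      Fermat.Agent.A2.T1.H669.iota_algebraMap E F₀ e
    rw [h1]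
    exact v.algebraMap_mem' _
  obtain ⟨k, hk⟩ := Fermat.Agent.Ribet.H127.val_pow_of_divisibleDiv_h127
    (E₂ := E) (K₂ := ↥(laurentBaseChange E F₀)) (L₂ := ↥(laurentBaseChange Qb F₀))
    v.toValuationSubring hγ0 hγ1 hval hEB hg hdiv
  have hιg : iota E F₀ g ≠ 0 := Fermat.Agent.A2.T1.H669.iota_ne_zero E F₀ hg
  have h2 : v.toValuationSubring.valuation (iota E F₀ g) = γ ^ (v.ord (iota E F₀ g)) :=
    valuation_eq_zpow_ord876 v hπ hιg
  have h3 : γ ^ (v.ord (iota E F₀ g)) = γ ^ ((m : ℤ) * k) := by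
    rw [← h2]
    exact hk
  have hinj := zpow_right_injective₀ (zero_lt_iff.mpr hγ0) hγ1.ne h3
  exact ⟨k, hinj⟩

end Converse

/-! ## The descended Kummer generator -/

section Rep

/-- **Representation.**  The function `y ∈ F_E(N)` represents the class `x ∈ J₀(N)` at the
exponent `m`:  `x = [D]` with `m D = div (ι y)`. -/
def WallRep876 (E : IntermediateField ℚ Qb) (N m : ℕ) [NeZero N] (x : JZero N)
    (y : ↥(laurentBaseChange E (modularFunctionFieldFull N))) : Prop :=
  ∃ D : Divisor.degZero (K := Qb) (F := modularFunctionFieldBar N), Pic0.mk D = x ∧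
    ∀ v : Place Qb (modularFunctionFieldBar N),
      v.ord (iota E (modularFunctionFieldFull N) y)
        = (m : ℤ) * (D : Divisor Qb (modularFunctionFieldBar N)) v

/-- A represented class is `m`-torsion. -/
theorem WallRep876.nsmul_eq_zero {E : IntermediateField ℚ Qb} {N m : ℕ} [NeZero N]
    {x : JZero N} {y : ↥(laurentBaseChange E (modularFunctionFieldFull N))}
    (h : WallRep876 E N m x y) (hy : y ≠ 0) : m • x = 0 := by
  obtain ⟨D, rfl, hD⟩ := h
  have h0 : m • Pic0.mk D = Pic0.mk (m • D) := rfl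
  rw [h0]
  refine (QuotientAddGroup.eq_zero_iff (m • D)).2 ?_
  rw [AddSubgroup.mem_addSubgroupOf]
  refine ⟨iota E (modularFunctionFieldFull N) y,
    Fermat.Agent.A2.T1.H669.iota_ne_zero E _ hy, fun w => ?_⟩
  rw [hD w]
  simp only [AddSubgroup.coe_nsmul, Finsupp.smul_apply, nsmul_eq_mul]

/-- A representative has `m ∣ div` over `E`. -/
theorem WallRep876.divisibleDiv {E : IntermediateField ℚ Qb} {N m : ℕ} [NeZero N]
    {x : JZero N} {y : ↥(laurentBaseChange E (modularFunctionFieldFull N))}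
    (h : WallRep876 E N m x y) (hy : y ≠ 0) : Fermat.Agent.A2.DivisibleDiv E m y := by
  obtain ⟨D, -, hD⟩ := h
  exact Fermat.Agent.A2.T1.H669.divisibleDiv_of_ord E (modularFunctionFieldFull N) m y hy
    fun v => ⟨_, hD v⟩

variable (N q m : ℕ) [NeZero N] [NeZero q]

/-- **The descended Kummer generator of a NEW inertia-fixed class** (`E = ℚ̄^{I_P}`). -/
theorem exists_wallRep876 (hm : 0 < m) (P : ValuationSubring Qb) (x : JZero (N * q))
    (hx : m • x = 0) (hnew : Fermat.Agent.S35.H155.IsQNew N q x)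
    (hfix : ∀ τ ∈ P.inertiaSubgroupIn ℚ, τ • x = x) :
    ∃ y₀ : ↥(laurentBaseChange (fixedField (P.inertiaSubgroupIn ℚ))
        (modularFunctionFieldFull (N * q))),
      y₀ ≠ 0 ∧ WallRep876 (fixedField (P.inertiaSubgroupIn ℚ)) (N * q) m x y₀ ∧
      Fermat.Agent.A2.DivisibleDiv (fixedField (P.inertiaSubgroupIn ℚ)) m y₀ ∧
      (∃ (c : fixedField (P.inertiaSubgroupIn ℚ))
        (h : ↥(laurentBaseChange (fixedField (P.inertiaSubgroupIn ℚ))
          (modularFunctionFieldFull N))), c ≠ 0 ∧ h ≠ 0 ∧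
        normAlong (heckeAlphaBar (fixedField (P.inertiaSubgroupIn ℚ)) N q) y₀
          = algebraMap (fixedField (P.inertiaSubgroupIn ℚ)) _ c * h ^ m) ∧
      (∃ (c : fixedField (P.inertiaSubgroupIn ℚ))
        (h : ↥(laurentBaseChange (fixedField (P.inertiaSubgroupIn ℚ))
          (modularFunctionFieldFull N))), c ≠ 0 ∧ h ≠ 0 ∧
        normAlong (heckeBetaBar (fixedField (P.inertiaSubgroupIn ℚ)) N q) y₀
          = algebraMap (fixedField (P.inertiaSubgroupIn ℚ)) _ c * h ^ m) := by
  classical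
  haveI : NeZero (N * q) := ⟨Nat.mul_ne_zero (NeZero.ne N) (NeZero.ne q)⟩
  haveI hPD : HasPrincipalDivisors Qb ↥(modularFunctionFieldBar (N * q)) :=
    Fermat.Agent.Lib.RR.H864.hasPrincipalDivisors_modularFunctionFieldBar (N * q)
  have hconst : Fermat.Agent.S36.H756.ConstOfOrdZero Qb ↥(modularFunctionFieldBar (N * q)) := by
    intro u hu h
    obtain ⟨c, hc⟩ :=
      Fermat.Agent.S18.H144.constOfOrdZero_modularFunctionFieldBar (N * q) u hu h
    exact ⟨c, hc.symm⟩
  -- 1. DESC: a fixed Kummer generator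
  obtain ⟨D, f, hf0, hDx, hfD, hffix⟩ :=
    Fermat.Agent.S36.H756.exists_fixed_kummer_rep (F₀ := modularFunctionFieldFull (N * q))
      hconst (P.inertiaSubgroupIn ℚ) m x hx hfix
  obtain ⟨y₀, hy₀⟩ := Fermat.Agent.S36.H756.exists_iota_eq_of_fixed
    (P.inertiaSubgroupIn ℚ) f hffix
  have hy₀0 : y₀ ≠ 0 := by
    rintro rfl
    rw [map_zero] at hy₀
    exact hf0 hy₀.symm
  have hrep : WallRep876 (fixedField (P.inertiaSubgroupIn ℚ)) (N * q) m x y₀ :=
    ⟨D, hDx, fun v => by rw [hy₀]; exact hfD v⟩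
  refine ⟨y₀, hy₀0, hrep, hrep.divisibleDiv hy₀0, ?_⟩
  -- 2. the norms over `ℚ̄`
  subst hDx
  rw [Fermat.Agent.S35.H155.isQNew_mk_iff] at hnew
  obtain ⟨⟨a, ha, haD⟩, ⟨b, hb, hbD⟩⟩ := hnew
  have hfD'' : ∀ w : Place Qb (modularFunctionFieldBar (N * q)),
      ((m : ℤ) • (D : Divisor Qb (modularFunctionFieldBar (N * q)))) w = w.ord f := by
    intro w
    rw [Finsupp.smul_apply, smul_eq_mul, hfD w]
  have hF := Fermat.Agent.S29.H812.exists_coord_modular N
  have hα := Fermat.Agent.Lib.FF398.heckeAlphaBarIntegral N q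
  have hβ := Fermat.Agent.Lib.FF398.heckeBetaBarIntegral N q
  have hfinα := Fermat.Agent.S29.H812.finiteAlong_heckeAlphaBar N q
  have hfinβ := Fermat.Agent.S29.H812.finiteAlong_heckeBetaBar N q
  have hNα := Fermat.Agent.S29.H812.normFormulaAlong hF (heckeAlphaBar Qb N q) hfinα
  have hNβ := Fermat.Agent.S29.H812.normFormulaAlong hF (heckeBetaBar Qb N q) hfinβ
  have hordα : ∀ v : Place Qb (modularFunctionFieldBar N),
      v.ord (normAlong (heckeAlphaBar Qb N q) f) = (m : ℤ) * v.ord a := by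
    intro v
    rw [← Fermat.Agent.S29.H395.pushforwardAlong_apply_eq_ord (heckeAlphaBar Qb N q) hα hfinα hNα
      hf0 hfD'' v, map_zsmul, Finsupp.smul_apply, smul_eq_mul, haD v]
  have hordβ : ∀ v : Place Qb (modularFunctionFieldBar N),
      v.ord (normAlong (heckeBetaBar Qb N q) f) = (m : ℤ) * v.ord b := by
    intro v
    rw [← Fermat.Agent.S29.H395.pushforwardAlong_apply_eq_ord (heckeBetaBar Qb N q) hβ hfinβ hNβ
      hf0 hfD'' v, map_zsmul, Finsupp.smul_apply, smul_eq_mul, hbD v]
  obtain ⟨hA, hA0, eA⟩ := Fermat.Agent.S35.H909.exists_pow_eq_of_ord N m hm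
    (Fermat.Agent.S29.H395.normAlong_ne_zero _ hfinα hf0) ha hordα
  obtain ⟨hB, hB0, eB⟩ := Fermat.Agent.S35.H909.exists_pow_eq_of_ord N m hm
    (Fermat.Agent.S29.H395.normAlong_ne_zero _ hfinβ hf0) hb hordβ
  -- 3. descent of the norms
  constructor
  · refine Fermat.Agent.S36.H756.descend_const_mul_pow (P.inertiaSubgroupIn ℚ) hm _ 1 hA
      one_ne_zero hA0 ?_
    rw [Fermat.Agent.S35.H858.iota_normAlong_alpha (fixedField (P.inertiaSubgroupIn ℚ)) N q
      hfinα y₀, hy₀, eA, map_one, one_mul]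
  · refine Fermat.Agent.S36.H756.descend_const_mul_pow (P.inertiaSubgroupIn ℚ) hm _ 1 hB
      one_ne_zero hB0 ?_
    rw [Fermat.Agent.S35.H858.iota_normAlong_beta (fixedField (P.inertiaSubgroupIn ℚ)) N q
      hfinβ y₀, hy₀, eB, map_one, one_mul]

end Rep

end Fermat.Agent.S59.LoSqC.H876
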