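import Fermat.Agent.S59.LoSqC.H876.KummerOld
import Fermat.Agent.S59.LoSqC.H876.DescOld
import Fermat.Agent.S37.H155.Pull
import Fermat.Agent.S36.H160.AuxPull
import Fermat.Agent.A2.Mod.Spec
import Fermat.Agent.S35.G.Spec

/-!
# S59 moonshot, cell (C) LO-SQ, leaf **W-DESC** (helper876): NEW-OLD on `J₀(N q)` from the wall over
the inertia field

`E = ℚ̄^{I_P}` (`P` a place of `ℚ̄`), `F_E(X) = laurentBaseChange E (modularFunctionFieldFull X)`,
`α_E, β_E : F_E(N) → F_E(N q)` the two degeneracy maps, `α^* = S37.H155.pullHom N q`,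
`β^* = S36.H160.pullB N q : J₀(N) → J₀(N q)`.

* `old_of_wallRep876` (**RETURN of the dictionary**): if `y₀ ∈ F_E(N q)ˣ` represents `x`
  (`WallRep876`) and `y₀ = c · α_E g · β_E g' · h ^ m` with `m ∣ div g`, `m ∣ div g'` over `E`,
  then `x = α^* y + β^* y'` with `m • y = 0`, `m • y' = 0`.  (Any intermediate field `E`.)
* `LevelWallAt876 E N q m Good` : the WALL over `E` at the exponent `m`, with a side condition
  `Good` on the function (e.g. "the slopes vanish"):
  `y ≠ 0`, `m ∣ div y`, `N_α y, N_β y ∈ E · (F_E(N))^m`, `Good y`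
      ⟹ `y = c · α_E g · β_E g' · h ^ m`, `m ∣ div g`, `m ∣ div g'`.
* `NewOldAt876 N q m P GoodJ`   : NEW-OLD on `J₀(N q)`: every `m`-torsion class which is
  `q`-new, fixed by `I_P` and satisfies `GoodJ` is `α^* y + β^* y'` with `m`-torsion `y, y'`.
* `newOldAt_of_levelWall876` (**W-DESC**): `LevelWallAt876 (ℚ̄^{I_P}) N q m Good → NewOldAt876 …`,
  given the link `GoodJ x → WallRep876 … x y₀ → Good y₀` (W-SLOPE; trivial if `Good = True`).
* `newOld_of_levelWall876` : the same without side conditions.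

No hypothesis on `m` except `0 < m`; no hypothesis on `N`, `q`.
-/

set_option autoImplicit false
set_option linter.style.haveILetI false
set_option linter.unusedSectionVars false
set_option synthInstance.maxHeartbeats 400000
set_option maxHeartbeats 1600000

noncomputable section

namespace Fermat.Agent.S59.LoSqC.H876

open AlgebraicCurve ModularCurve IntermediateField
open Fermat.Agent.A2.T1.H669 (iota Qb)
open Fermat.Agent.S29.H395 (normAlong)

section Old

variable (E : IntermediateField ℚ Qb) (N q m : ℕ) [NeZero N] [NeZero q]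

/-- **RETURN of the dictionary.**  A class represented by `c · α_E g · β_E g' · h ^ m` with
`m ∣ div g`, `m ∣ div g'` is OLD. -/
theorem old_of_wallRep876 (hm : 0 < m) (x : JZero (N * q))
    (y₀ : ↥(laurentBaseChange E (modularFunctionFieldFull (N * q)))) (hy₀ : y₀ ≠ 0)
    (hrep : WallRep876 E (N * q) m x y₀)
    (c : E) (g g' : ↥(laurentBaseChange E (modularFunctionFieldFull N)))
    (h : ↥(laurentBaseChange E (modularFunctionFieldFull (N * q))))
    (hg : Fermat.Agent.A2.DivisibleDiv E m g) (hg' : Fermat.Agent.A2.DivisibleDiv E m g')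
    (e : y₀ = algebraMap E _ c * heckeAlphaBar E N q g * heckeBetaBar E N q g' * h ^ m) :
    ∃ y y' : JZero N, m • y = 0 ∧ m • y' = 0 ∧
      x = Fermat.Agent.S37.H155.pullHom N q y + Fermat.Agent.S36.H160.pullB N q y' := by
  haveI : NeZero (N * q) := ⟨Nat.mul_ne_zero (NeZero.ne N) (NeZero.ne q)⟩
  haveI hPD : HasPrincipalDivisors Qb ↥(modularFunctionFieldBar (N * q)) :=
    Fermat.Agent.Lib.RR.H864.hasPrincipalDivisors_modularFunctionFieldBar (N * q)
  haveI hPD' : HasPrincipalDivisors Qb ↥(modularFunctionFieldBar N) :=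
    Fermat.Agent.Lib.RR.H864.hasPrincipalDivisors_modularFunctionFieldBar N
  obtain ⟨D, rfl, hD⟩ := hrep
  -- the factors are nonzero
  have hc0 : algebraMap E ↥(laurentBaseChange E (modularFunctionFieldFull (N * q))) c ≠ 0 := by
    rintro h0
    rw [h0, zero_mul, zero_mul, zero_mul] at e
    exact hy₀ e
  have hg0 : g ≠ 0 := by
    rintro rfl
    rw [map_zero, mul_zero, zero_mul, zero_mul] at e
    exact hy₀ e
  have hg'0 : g' ≠ 0 := by
    rintro rfl
    rw [map_zero, mul_zero, zero_mul] at e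
    exact hy₀ e
  have hh0 : h ≠ 0 := by
    rintro rfl
    rw [zero_pow hm.ne', mul_zero] at e
    exact hy₀ e
  -- the equation over `ℚ̄`
  have e' : iota E (modularFunctionFieldFull (N * q)) y₀
      = algebraMap Qb ↥(modularFunctionFieldBar (N * q)) (c : Qb)
        * heckeAlphaBar Qb N q (iota E (modularFunctionFieldFull N) g)
        * heckeBetaBar Qb N q (iota E (modularFunctionFieldFull N) g')
        * (iota E (modularFunctionFieldFull (N * q)) h) ^ m := by
    rw [e, map_mul, map_mul, map_mul, map_pow,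
      Fermat.Agent.S35.H858.iota_heckeAlphaBar, Fermat.Agent.S35.H858.iota_heckeBetaBar,
      Fermat.Agent.A2.T1.H669.iota_algebraMap]
    rfl
  obtain ⟨y, y', hy, hy', hxy⟩ := mk_eq_pull_add_pull876
    (heckeAlphaBar Qb N q) (heckeBetaBar Qb N q)
    (Fermat.Agent.Lib.FF398.heckeAlphaBarIntegral N q)
    (Fermat.Agent.Lib.FF398.heckeBetaBarIntegral N q)
    (Fermat.Agent.Lib.FF398.fundamentalIdentityAlong_alpha N q)
    (Fermat.Agent.Lib.FF398.fundamentalIdentityAlong_beta N q) hm.ne' D hD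
    (Fermat.Agent.A2.T1.H669.iota_ne_zero E _ hg0)
    (Fermat.Agent.A2.T1.H669.iota_ne_zero E _ hg'0)
    (dvd_ord_iota_of_divisibleDiv876 E _ m g hg0 hg)
    (dvd_ord_iota_of_divisibleDiv876 E _ m g' hg'0 hg')
    (c : Qb) (Fermat.Agent.A2.T1.H669.iota_ne_zero E _ hh0) e'
  exact ⟨y, y', hy, hy', hxy⟩

end Old

/-! ## The two statements and W-DESC -/

section Wall

/-- **The WALL over `E`** at the exponent `m` (levels `N` and `N q`), with a side condition
`Good` on the function. -/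
def LevelWallAt876 (E : IntermediateField ℚ Qb) (N q m : ℕ) [NeZero N] [NeZero q]
    (Good : Fermat.Agent.A2.Mod.FE E (N * q) → Prop) : Prop :=
  ∀ y : Fermat.Agent.A2.Mod.FE E (N * q), y ≠ 0 → Fermat.Agent.A2.DivisibleDiv E m y →
    Fermat.Agent.S35.G.NormPow (Fermat.Agent.A2.Mod.αE E N q) m y →
    Fermat.Agent.S35.G.NormPow (Fermat.Agent.A2.Mod.βE E N q) m y → Good y →
    ∃ (c : E) (g g' : Fermat.Agent.A2.Mod.FE E N) (h : Fermat.Agent.A2.Mod.FE E (N * q)),
      Fermat.Agent.A2.DivisibleDiv E m g ∧ Fermat.Agent.A2.DivisibleDiv E m g' ∧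
      y = algebraMap E (Fermat.Agent.A2.Mod.FE E (N * q)) c * Fermat.Agent.A2.Mod.αE E N q g
        * Fermat.Agent.A2.Mod.βE E N q g' * h ^ m

/-- **NEW-OLD on `J₀(N q)`** at the exponent `m`, with a side condition `GoodJ` on the class. -/
def NewOldAt876 (N q m : ℕ) [NeZero N] [NeZero q] (P : ValuationSubring Qb)
    (GoodJ : JZero (N * q) → Prop) : Prop :=
  ∀ x : JZero (N * q), m • x = 0 → Fermat.Agent.S35.H155.IsQNew N q x →
    (∀ τ ∈ P.inertiaSubgroupIn ℚ, τ • x = x) → GoodJ x →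
    ∃ y y' : JZero N, m • y = 0 ∧ m • y' = 0 ∧
      x = Fermat.Agent.S37.H155.pullHom N q y + Fermat.Agent.S36.H160.pullB N q y'

variable (N q m : ℕ) [NeZero N] [NeZero q]

/-- **W-DESC.**  The wall over the inertia field gives NEW-OLD on `J₀(N q)`. -/
theorem newOldAt_of_levelWall876 (hm : 0 < m) (P : ValuationSubring Qb)
    (Good : Fermat.Agent.A2.Mod.FE (fixedField (P.inertiaSubgroupIn ℚ)) (N * q) → Prop)
    (GoodJ : JZero (N * q) → Prop)
    (hlink : ∀ (x : JZero (N * q))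
      (y₀ : Fermat.Agent.A2.Mod.FE (fixedField (P.inertiaSubgroupIn ℚ)) (N * q)),
      GoodJ x → y₀ ≠ 0 → WallRep876 (fixedField (P.inertiaSubgroupIn ℚ)) (N * q) m x y₀ →
      Good y₀)
    (hW : LevelWallAt876 (fixedField (P.inertiaSubgroupIn ℚ)) N q m Good) :
    NewOldAt876 N q m P GoodJ := by
  intro x hx hnew hfix hgood
  obtain ⟨y₀, hy₀, hrep, hdiv, ⟨c₁, h₁, -, -, e₁⟩, ⟨c₂, h₂, -, -, e₂⟩⟩ :=
    exists_wallRep876 N q m hm P x hx hnew hfix
  obtain ⟨c, g, g', h, hg, hg', e⟩ :=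
    hW y₀ hy₀ hdiv ⟨c₁, h₁, e₁⟩ ⟨c₂, h₂, e₂⟩ (hlink x y₀ hgood hy₀ hrep)
  exact old_of_wallRep876 (fixedField (P.inertiaSubgroupIn ℚ)) N q m hm x y₀ hy₀ hrep
    c g g' h hg hg' e

/-- **W-DESC, no side condition.** -/
theorem newOld_of_levelWall876 (hm : 0 < m) (P : ValuationSubring Qb)
    (hW : LevelWallAt876 (fixedField (P.inertiaSubgroupIn ℚ)) N q m fun _ => True) :
    NewOldAt876 N q m P fun _ => True :=
  newOldAt_of_levelWall876 N q m hm P _ _ (fun _ _ _ _ _ => trivial) hW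

/-- The hypotheses of the wall hold for the descended generator (the form in which W-SLOPE and
W-NEW consume W-DESC): every `m`-torsion, `q`-new, `I_P`-fixed class has a representative over
the inertia field satisfying the hypotheses of `LevelWallAt876`. -/
theorem exists_wallRep_normPow876 (hm : 0 < m) (P : ValuationSubring Qb) (x : JZero (N * q))
    (hx : m • x = 0) (hnew : Fermat.Agent.S35.H155.IsQNew N q x)
    (hfix : ∀ τ ∈ P.inertiaSubgroupIn ℚ, τ • x = x) :
    ∃ y₀ : Fermat.Agent.A2.Mod.FE (fixedField (P.inertiaSubgroupIn ℚ)) (N * q),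
      y₀ ≠ 0 ∧ WallRep876 (fixedField (P.inertiaSubgroupIn ℚ)) (N * q) m x y₀ ∧
      Fermat.Agent.A2.DivisibleDiv (fixedField (P.inertiaSubgroupIn ℚ)) m y₀ ∧
      Fermat.Agent.S35.G.NormPow
        (Fermat.Agent.A2.Mod.αE (fixedField (P.inertiaSubgroupIn ℚ)) N q) m y₀ ∧
      Fermat.Agent.S35.G.NormPow
        (Fermat.Agent.A2.Mod.βE (fixedField (P.inertiaSubgroupIn ℚ)) N q) m y₀ := by
  obtain ⟨y₀, hy₀, hrep, hdiv, ⟨c₁, h₁, -, -, e₁⟩, ⟨c₂, h₂, -, -, e₂⟩⟩ :=
    exists_wallRep876 N q m hm P x hx hnew hfix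
  exact ⟨y₀, hy₀, hrep, hdiv, ⟨c₁, h₁, e₁⟩, ⟨c₂, h₂, e₂⟩⟩

end Wall

end Fermat.Agent.S59.LoSqC.H876
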