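import Fermat.Agent.S59.LoSqC.Spec
import Fermat.Agent.S59.LoSqC.H876.WireOld
import Fermat.Agent.S36.Mod3.H370.Val
import Fermat.Agent.S36.Eng.H189.Unr

/-!
# S59 moonshot, cell (C) LO-SQ, leaf **W-DESC**, frozen type (helper876)

`descW : Fermat.Agent.S59.LoSqC.DescWStatement`  (VERBATIM, `S59/LoSqC/Spec.lean` of helper885):

the level wall over the inertia field `E = ℚ̄^{I_A}` and the slope leaf give NEW-OLD on
`J₀(M q q)`:  every `p`-torsion class which is `q`-new and fixed by `I_A` (and a non-Eisenstein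
eigenclass when `p ∣ q + 1`) is `α^* y + β^* y'` with `p`-torsion classes `y, y'` of level `M q`.

Proof.
1. `E` is an unramified good level (`S36.Eng.H189.unramified_inertiaField`), so `R_E` is a
   discrete valuation ring: a uniformiser `w` exists, and a system of objects
   `Mod3.Objs A E M q …` exists (`objs_exists876`: the proof of `Mod3.H370.leafObj`, which does
   not use neatness).
2. DESC (`exists_wallRep_normPow876`): `x` has a representative `y₀ ∈ F_E(M q q)ˣ` with
   `p ∣ div y₀` and norms along `α_E`, `β_E` constants times `p`-th powers;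
   `y₀` is an `E`-rational Kummer generator of `x` (`IsKummerGenE`), so W-SLOPE applies to it.
3. The level wall gives `y₀ = c · α g · β g' · h ^ p` (`FromBelow`), and the dictionary
   (`old_of_wallRep876`) returns `x = α^* y + β^* y'`.
-/

set_option autoImplicit false
set_option linter.style.haveILetI false
set_option linter.unusedSectionVars false
set_option synthInstance.maxHeartbeats 400000
set_option maxHeartbeats 1600000

noncomputable section

namespace Fermat.Agent.S59.LoSqC.H876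

open AlgebraicCurve ModularCurve IntermediateField
open Fermat.Agent.S36 Fermat.Agent.S36.Eng Fermat.Agent.A2.Mod

/-- **The objects exist** over every unramified level with `R_E` a discrete valuation ring
(no neatness): the proof of `Mod3.H370.leafObj`. -/
theorem objs_exists876 (P : ValuationSubring A2.Qb) (E : IntermediateField ℚ A2.Qb) (M q : ℕ)
    [NeZero M] [NeZero q] [NeZero (M * q)] (w : A2.RE P E) (hq : q.Prime) (hqM : ¬ q ∣ M)
    (hP : P.LiesOverPrime q) (hun : Eng.Unramified P E q) (hw : Irreducible w) :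
    ∃ (V₁' V₂' : ValuationSubring (A2.Mod.FE E (M * q)))
      (V₁ V₂ V₃ : ValuationSubring (A2.Mod.FE E (M * q * q)))
      (W' : A2.Mod.FE E (M * q) ≃ₐ[E] A2.Mod.FE E (M * q))
      (W : A2.Mod.FE E (M * q * q) ≃ₐ[E] A2.Mod.FE E (M * q * q)),
      Mod3.Objs P E M q V₁' V₂' V₁ V₂ V₃ W' W := by
  have hS : Setting P E M q w := ⟨hq, hqM, NeZero.ne M, hP, hun.1.dvr, hw⟩
  have hSQ : Fermat.Agent.S36.H370.SettingQ P E q w :=
    Fermat.Agent.S36.H370.SettingQ.of_setting hS
  obtain ⟨V₁', hV₁'⟩ := H553.vinfExists P E (M * q) (NeZero.ne _) hS.dvr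
  obtain ⟨V₁, hV₁⟩ := H553.vinfExists P E (M * q * q) (NeZero.ne _) hS.dvr
  obtain ⟨W', hW'⟩ := H751.frickeExists E (M * q) (NeZero.ne _)
  obtain ⟨W, hW⟩ := H751.frickeExists E (M * q * q) (NeZero.ne _)
  obtain ⟨Vmid, hne, hα, -⟩ :=
    Fermat.Agent.S36.H972.mod3_alpha_main hS (Mod3.H370.unram_of_std370 hSQ hun) hV₁' hV₁
  refine ⟨V₁', V₁'.comap (W' : FE E (M * q) →+* FE E (M * q)), V₁, Vmid,
    V₁.comap (W : FE E (M * q * q) →+* FE E (M * q * q)), W', W,
    ⟨hV₁', hW', rfl, hV₁, hW, rfl, ?_, hne⟩⟩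
  ext k
  rw [ValuationSubring.mem_comap]
  exact hα k

/-- **W-DESC**, exact frozen type. -/
theorem descW : Fermat.Agent.S59.LoSqC.DescWStatement := by
  intro M q p _ _ _ hq hqM hp hp2 hpq A hA hLW hSl x hx hnew hfix heig
  -- 1. the level
  have hun : Eng.Unramified A (inertiaFldC A) q :=
    Fermat.Agent.S36.Eng.H189.unramified_inertiaField q hq A hA
  haveI : IsDiscreteValuationRing ↥(A2.RE A (inertiaFldC A)) := hun.1.dvr
  obtain ⟨w, hw⟩ := IsDiscreteValuationRing.exists_irreducible ↥(A2.RE A (inertiaFldC A))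
  obtain ⟨V₁', V₂', V₁, V₂, V₃, W', W, hO⟩ :=
    objs_exists876 A (inertiaFldC A) M q w hq hqM hA hun hw
  -- 2. DESC
  obtain ⟨y₀, hy₀, hrep, hdiv, hα, hβ⟩ :=
    exists_wallRep_normPow876 (M * q) q p hp.pos A x hx hnew hfix
  have hK : IsKummerGenE (inertiaFldC A) (M * q * q) p y₀ x := ⟨hy₀, hrep⟩
  -- 3. the wall
  obtain ⟨c, g, g', h, -, -, -, hg, hg', e⟩ :=
    hLW w hw V₁' V₂' V₁ V₂ V₃ W' W hO y₀ hy₀ hdiv hα hβ (fun hd => by
      obtain ⟨S, a, ha, hea⟩ := heig hd
      exact hSl hd x hx S a ha hea w hw V₁' V₂' V₁ V₂ V₃ W' W hO y₀ hK)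
  exact old_of_wallRep876 (inertiaFldC A) (M * q) q p hp.pos x y₀ hy₀ hrep c g g' h hg hg' e

end Fermat.Agent.S59.LoSqC.H876
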