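import Fermat.Agent.S36.H756.DescPic
import Fermat.Agent.S37.H818.HeckeComm
import Fermat.Agent.S29.H395.KummerCorr

/-!
# S59 moonshot, cell (C) LO-SQ, leaf W-DESC, part 1 (helper876): the Kummer dictionary for OLD classes

Prelude language, any `K`, `F' → F` (two `K`-embeddings `α β : F' →ₐ[K] F` of function fields).

* `exists_degZero_of_dvd_ord876` : if `m ∣ ord_v g` for all places `v`, then `div g = m • D` for a
  divisor `D` of degree `0`  (`D = (div g) / m`).
* `nsmul_mk_eq_zero_of_ord876`   : `div g = m • D`  ⟹  `m • [D] = 0`.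
* `mk_eq_pull_add_pull876` (**OLD**) : if `m • D = div f` and
  `f = c · α g · β g' · h ^ m` with `m ∣ div g`, `m ∣ div g'`, then
  `[D] = α^* y + β^* y'` with `m • y = 0`, `m • y' = 0`
  (`y = [(div g) / m]`, `y' = [(div g') / m]`, `α^* = S37.H818.pullbackPic0Along α`).

This is the converse direction of the dictionary `S36.H36.nsmul_mk_eq_zero_of_pow_eq`; it is the
last step of W-DESC (from the wall over the inertia field back to `J₀(M q²)`).
-/

set_option autoImplicit false
set_option linter.style.haveILetI false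

noncomputable section

namespace Fermat.Agent.S59.LoSqC.H876

open AlgebraicCurve Fermat.Agent.S37.H818

section Abstract

variable {K F F' : Type*} [Field K] [Field F] [Field F'] [Algebra K F] [Algebra K F']

/-- `(div g) / m` as a divisor of degree zero, when `m ∣ div g`. -/
theorem exists_degZero_of_dvd_ord876 [HasPrincipalDivisors K F] {m : ℕ} (hm : m ≠ 0) {g : F}
    (hg : g ≠ 0) (hdiv : ∀ v : Place K F, (m : ℤ) ∣ v.ord g) :
    ∃ D : Divisor.degZero (K := K) (F := F),
      ∀ v : Place K F, v.ord g = (m : ℤ) * (D : Divisor K F) v := by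
  obtain ⟨D₀, hD₀, hdeg⟩ := HasPrincipalDivisors.exists_divisor (K := K) g hg
  have hm' : (m : ℤ) ≠ 0 := by exact_mod_cast hm
  set D : Divisor K F := Finsupp.mapRange (fun n : ℤ => n / (m : ℤ)) (Int.zero_ediv _) D₀
    with hD
  have hDv : ∀ v : Place K F, v.ord g = (m : ℤ) * D v := by
    intro v
    rw [hD, Finsupp.mapRange_apply, hD₀ v]
    exact (Int.mul_ediv_cancel' (hdiv v)).symm
  have hsmul : (m : ℤ) • D = D₀ := by
    ext v
    rw [Finsupp.smul_apply, smul_eq_mul, ← hDv v, hD₀ v]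
  have hdegD : Divisor.degree D = 0 := by
    have h1 : (m : ℤ) • Divisor.degree D = 0 := by
      rw [← map_zsmul, hsmul, hdeg]
    rw [smul_eq_mul] at h1
    exact (mul_eq_zero.1 h1).resolve_left hm'
  exact ⟨⟨D, hdegD⟩, hDv⟩

/-- `div g = m • D`  ⟹  `m • [D] = 0`. -/
theorem nsmul_mk_eq_zero_of_ord876 (m : ℕ) (D : Divisor.degZero (K := K) (F := F)) {g : F}
    (hg : g ≠ 0) (hgD : ∀ v : Place K F, v.ord g = (m : ℤ) * (D : Divisor K F) v) :
    m • Pic0.mk D = 0 := by
  have h0 : m • Pic0.mk D = Pic0.mk (m • D) := rfl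
  rw [h0]
  refine (QuotientAddGroup.eq_zero_iff (m • D)).2 ?_
  rw [AddSubgroup.mem_addSubgroupOf]
  refine ⟨g, hg, fun w => ?_⟩
  rw [hgD w]
  simp only [AddSubgroup.coe_nsmul, Finsupp.smul_apply, nsmul_eq_mul]

variable [HasPrincipalDivisors K F]

/-- `m • D = div g`  ⟹  `m • φ^* D = div (φ g)` (pointwise). -/
theorem pullbackAlong_kummer876 (φ : F' →ₐ[K] F) (hφ : φ.toRingHom.IsIntegral) (m : ℕ)
    {D : Divisor K F'} {g : F'} (hgD : ∀ v : Place K F', v.ord g = (m : ℤ) * D v)
    (w : Place K F) : (m : ℤ) * Divisor.pullbackAlong φ hφ D w = w.ord (φ g) := by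
  have h1 : ∀ v : Place K F', ((m : ℤ) • D) v = v.ord g := fun v => by
    rw [Finsupp.smul_apply, smul_eq_mul, hgD v]
  have h2 := Fermat.Agent.S29.H395.pullbackAlong_apply_eq_ord φ hφ h1 w
  rw [map_zsmul, Finsupp.smul_apply, smul_eq_mul] at h2
  exact h2

variable [HasPrincipalDivisors K F']

/-- **OLD.**  `m • D = div f`, `f = c · α g · β g' · h ^ m`, `m ∣ div g`, `m ∣ div g'`  ⟹
`[D] = α^* y + β^* y'` with `m`-torsion classes `y`, `y'`. -/
theorem mk_eq_pull_add_pull876 (α β : F' →ₐ[K] F) (hα : α.toRingHom.IsIntegral)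
    (hβ : β.toRingHom.IsIntegral) (hFIα : FundamentalIdentityAlong K α hα)
    (hFIβ : FundamentalIdentityAlong K β hβ) {m : ℕ} (hm : m ≠ 0)
    (D : Divisor.degZero (K := K) (F := F)) {f : F}
    (hfD : ∀ v : Place K F, v.ord f = (m : ℤ) * (D : Divisor K F) v)
    {g g' : F'} (hg : g ≠ 0) (hg' : g' ≠ 0)
    (hdg : ∀ v : Place K F', (m : ℤ) ∣ v.ord g) (hdg' : ∀ v : Place K F', (m : ℤ) ∣ v.ord g')
    (c : K) {h : F} (hh : h ≠ 0)
    (hf : f = algebraMap K F c * α g * β g' * h ^ m) :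
    ∃ y y' : Pic0 K F', m • y = 0 ∧ m • y' = 0 ∧
      Pic0.mk D = pullbackPic0Along α hα hFIα y + pullbackPic0Along β hβ hFIβ y' := by
  have hm' : (m : ℤ) ≠ 0 := by exact_mod_cast hm
  -- the degenerate case `c = 0`
  rcases eq_or_ne c 0 with rfl | hc
  · have hf0 : f = 0 := by rw [hf, map_zero, zero_mul, zero_mul, zero_mul]
    have hD0 : D = 0 := by
      apply Subtype.ext
      ext v
      have h1 := hfD v
      rw [hf0, Place.ord_zero] at h1
      simpa using (mul_eq_zero.1 h1.symm).resolve_left hm'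
    refine ⟨0, 0, smul_zero _, smul_zero _, ?_⟩
    rw [hD0, map_zero, map_zero, add_zero]
    rfl
  -- the main case
  obtain ⟨Dg, hDg⟩ := exists_degZero_of_dvd_ord876 (K := K) hm hg hdg
  obtain ⟨Dg', hDg'⟩ := exists_degZero_of_dvd_ord876 (K := K) hm hg' hdg'
  refine ⟨Pic0.mk Dg, Pic0.mk Dg', nsmul_mk_eq_zero_of_ord876 m Dg hg hDg,
    nsmul_mk_eq_zero_of_ord876 m Dg' hg' hDg', ?_⟩
  rw [pullbackPic0Along_mk, pullbackPic0Along_mk, ← Pic0.mk_add]
  set E : Divisor.degZero (K := K) (F := F) :=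
    pullbackDegZeroAlong α hα hFIα Dg + pullbackDegZeroAlong β hβ hFIβ Dg' with hE
  have hEv : ∀ w : Place K F, (E : Divisor K F) w =
      Divisor.pullbackAlong α hα (Dg : Divisor K F') w
        + Divisor.pullbackAlong β hβ (Dg' : Divisor K F') w := by
    intro w
    rw [hE, AddSubgroup.coe_add, Finsupp.add_apply, coe_pullbackDegZeroAlong,
      coe_pullbackDegZeroAlong]
  have hcK : algebraMap K F c ≠ 0 := by simpa using hc
  have hαg : α g ≠ 0 := (map_ne_zero_iff _ α.toRingHom.injective).2 hg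
  have hβg' : β g' ≠ 0 := (map_ne_zero_iff _ β.toRingHom.injective).2 hg'
  have hkey : Pic0.mk (D - E) = 0 := by
    refine (QuotientAddGroup.eq_zero_iff (D - E)).2 ?_
    rw [AddSubgroup.mem_addSubgroupOf]
    refine ⟨h, hh, fun w => ?_⟩
    have h1 : (m : ℤ) * (D : Divisor K F) w
        = (m : ℤ) * Divisor.pullbackAlong α hα (Dg : Divisor K F') w
          + (m : ℤ) * Divisor.pullbackAlong β hβ (Dg' : Divisor K F') w
          + (m : ℤ) * w.ord h := by
      rw [← hfD w, hf, w.ord_mul (mul_ne_zero (mul_ne_zero hcK hαg) hβg') (pow_ne_zero m hh),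
        w.ord_mul (mul_ne_zero hcK hαg) hβg', w.ord_mul hcK hαg,
        Fermat.Agent.S36.H756.ord_const_eq_zero, zero_add, Fermat.Agent.S36.H756.ord_npow,
        pullbackAlong_kummer876 α hα m hDg w, pullbackAlong_kummer876 β hβ m hDg' w]
    rw [AddSubgroup.coe_sub, Finsupp.sub_apply, hEv w]
    apply mul_left_cancel₀ hm'
    rw [mul_sub, mul_add, h1]
    ring
  have hsplit : Pic0.mk D = Pic0.mk E + Pic0.mk (D - E) := by
    rw [← Pic0.mk_add]
    congr 1
    abel
  rw [hsplit, hkey, add_zero]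

end Abstract

end Fermat.Agent.S59.LoSqC.H876
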