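import Fermat.Agent.S59.LoSqC.H876.WireOld
import Fermat.Agent.S59.LoSqC.H301.CoreNeat
import Fermat.Agent.S29.H801.M1NC
import Fermat.Agent.S37.H818.LocalGen

/-!
# S59 moonshot, cell (C) LO-SQ: W-DESC wired into TOP-CORE (helper876)

TOP-CORE (helper301, `S59/LoSqC/H301/CoreNeat.lean`) consumes
`H301.NewOldStatement Neat` : at every level `N q` with `Neat N q` there is a pull pair
(`H301.IsPullPair`) for which `H301.NewOldAt` holds at every place over `q` and every non-Eisenstein
eigensystem.  This file provides it from the wall over the inertia field: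

* `pullB_heckeOperatorAlong876` : `β^* = S36.H160.pullB N q` commutes with `T_ℓ`, `ℓ ≠ q` prime
  (the `α`-analogue is `S37.H155.pullHom_hecke`);
* `isPullPair876`               : `H301.IsPullPair N q {q} (pullHom N q) (pullB N q)`;
* `newOldAt301_of_levelWall876` : `LevelWallAt876 (ℚ̄^{I_P}) N q p Good` + the link
  "`x` eigen for `a` off `S`, `y₀` represents `x` ⟹ `Good y₀`" give `H301.NewOldAt N q p P S a`;
* `WallStatement876 Neat`       : the wall at all neat levels, all places, all non-Eisenstein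
  eigensystems, with its side condition;
* `newOldStatement_of_wall876`  : `WallStatement876 Neat → H301.NewOldStatement Neat`;
* `coreSqNeat_of_wall876`       : `WallStatement876 Neat → H301.CoreSqNeatStatement Neat`.
-/

set_option autoImplicit false
set_option linter.style.haveILetI false
set_option linter.unusedSectionVars false
set_option synthInstance.maxHeartbeats 400000
set_option maxHeartbeats 1600000

noncomputable section

namespace Fermat.Agent.S59.LoSqC.H876

open AlgebraicCurve ModularCurve IntermediateField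
open Fermat.Agent.A2.T1.H669 (iota Qb)
open Fermat.Agent.S37.H818 Fermat.Agent.S29.H801 Fermat.Agent.Lib.FF398

section PullPair

variable (N q ℓ : ℕ) [NeZero N] [NeZero q] [NeZero ℓ]

/-- **`β^*` is Hecke-equivariant**: `β_q^* ∘ T_ℓ = T_ℓ ∘ β_q^*` for primes `ℓ ≠ q`. -/
theorem pullB_heckeOperatorAlong876 (hq : q.Prime) (hℓ : ℓ.Prime) (hne : q ≠ ℓ)
    (x : JZero N) :
    Fermat.Agent.S36.H160.pullB N q (heckeOperatorAlong Qb N ℓ x)
      = heckeOperatorAlong Qb (N * q) ℓ (Fermat.Agent.S36.H160.pullB N q x) := by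
  rw [heckeOperatorAlong_eq_heckePic0Bar N ℓ, heckeOperatorAlong_eq_heckePic0Bar (N * q) ℓ]
  exact pullbackPic0Along_correspondence (heckeAlphaBar Qb N ℓ) (heckeBetaBar Qb N ℓ)
    (heckeBetaBar Qb N q) (heckeAlphaBar Qb (N * q) ℓ) (heckeBetaBar Qb (N * q) ℓ)
    (betaTo Qb (N * ℓ) q (N * q * ℓ) (Nat.mul_right_comm N ℓ q))
    (heckeAlphaBarIntegral N ℓ) (heckeBetaBarIntegral N ℓ)
    (heckeBetaBarIntegral N q) (heckeAlphaBarIntegral (N * q) ℓ)
    (heckeBetaBarIntegral (N * q) ℓ)
    (betaTo_integral Qb (Nat.mul_right_comm N ℓ q) (heckeBetaBarIntegral (N * ℓ) q))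
    (rel_sq₁ (L := Qb) N q ℓ) (rel_BB (L := Qb) N q ℓ).symm
    (fundamentalIdentityAlong_beta N ℓ) (finiteAlong_alpha N ℓ) (normFormulaAlong_alpha N ℓ)
    (fundamentalIdentityAlong_beta (N * q) ℓ) (finiteAlong_alpha (N * q) ℓ)
    (normFormulaAlong_alpha (N * q) ℓ) (fundamentalIdentityAlong_beta N q)
    (normCompat_bar N q ℓ hq hℓ hne)
    (Fermat.Agent.S37.H818.hasLocalGenerators (heckeAlphaBar Qb N ℓ)
      (heckeAlphaBarIntegral N ℓ)) x

/-- **The pull pair** `(α^*, β^*) = (S37.H155.pullHom N q, S36.H160.pullB N q)`. -/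
theorem isPullPair876 (hq : q.Prime) :
    Fermat.Agent.S59.LoSqC.H301.IsPullPair N q {q}
      (Fermat.Agent.S37.H155.pullHom N q) (Fermat.Agent.S36.H160.pullB N q) := by
  constructor
  · intro ℓ hℓ y
    haveI : NeZero (ℓ : ℕ) := ⟨ℓ.2.ne_zero⟩
    have hne : q ≠ (ℓ : ℕ) := fun h => hℓ (by rw [Finset.mem_singleton]; exact h.symm)
    exact Fermat.Agent.S37.H155.pullHom_hecke N q (ℓ : ℕ) ℓ.2 hq hne y
  · intro ℓ hℓ y
    haveI : NeZero (ℓ : ℕ) := ⟨ℓ.2.ne_zero⟩
    have hne : q ≠ (ℓ : ℕ) := fun h => hℓ (by rw [Finset.mem_singleton]; exact h.symm)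
    exact pullB_heckeOperatorAlong876 N q (ℓ : ℕ) hq ℓ.2 hne y

end PullPair

/-! ## The statement level -/

section Statement

open Fermat.Agent.Ribet Fermat.Agent.Ribet.Spec Fermat.Agent.Ribet.H944.Wall

/-- **W-DESC in the shape of TOP-CORE** (one level, one place, one eigensystem). -/
theorem newOldAt301_of_levelWall876 (N q p : ℕ) [NeZero N] [NeZero q] (hp : 0 < p)
    (P : ValuationSubring Qb) (S : Finset ℕ) (a : ℕ → ℤ)
    (Good : Fermat.Agent.A2.Mod.FE (fixedField (P.inertiaSubgroupIn ℚ)) (N * q) → Prop)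
    (hlink : ∀ (x : JZero (N * q))
      (y₀ : Fermat.Agent.A2.Mod.FE (fixedField (P.inertiaSubgroupIn ℚ)) (N * q)),
      EigenAt (N * q) S a x → y₀ ≠ 0 →
      WallRep876 (fixedField (P.inertiaSubgroupIn ℚ)) (N * q) p x y₀ → Good y₀)
    (hW : LevelWallAt876 (fixedField (P.inertiaSubgroupIn ℚ)) N q p Good) :
    Fermat.Agent.S59.LoSqC.H301.NewOldAt N q p P S a
      (Fermat.Agent.S37.H155.pullHom N q) (Fermat.Agent.S36.H160.pullB N q) :=
  fun x hx hnew hfix heig =>
    newOldAt_of_levelWall876 N q p hp P Good (fun x => EigenAt (N * q) S a x) hlink hW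
      x hx hnew hfix heig

/-- **The wall, statement level**: at every level `N q` (`q ∥ N`) with `Neat N q`, every odd
prime `p ≠ q`, every place `P` over `q` and every non-Eisenstein eigensystem `a` off `S`, the wall
over the inertia field `ℚ̄^{I_P}` holds at the exponent `p` for a side condition `Good` which is
satisfied by the representatives of the eigenclasses for `a` (W-SLOPE). -/
def WallStatement876 (Neat : ℕ → ℕ → Prop) : Prop :=
  ∀ (N q p : ℕ) [NeZero N] [NeZero q], q.Prime → N.factorization q = 1 → p.Prime → p ≠ 2 →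
    p ≠ q → Neat N q →
    ∀ P : ValuationSubring Qb, P.LiesOverPrime q →
    ∀ (S : Finset ℕ) (a : ℕ → ℤ), NonEisAway p a →
    ∃ Good : Fermat.Agent.A2.Mod.FE (fixedField (P.inertiaSubgroupIn ℚ)) (N * q) → Prop,
      (∀ (x : JZero (N * q))
        (y₀ : Fermat.Agent.A2.Mod.FE (fixedField (P.inertiaSubgroupIn ℚ)) (N * q)),
        EigenAt (N * q) S a x → y₀ ≠ 0 →
        WallRep876 (fixedField (P.inertiaSubgroupIn ℚ)) (N * q) p x y₀ → Good y₀) ∧
      LevelWallAt876 (fixedField (P.inertiaSubgroupIn ℚ)) N q p Good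

/-- **NEW-OLD (TOP-CORE shape) from the wall.** -/
theorem newOldStatement_of_wall876 (Neat : ℕ → ℕ → Prop) (h : WallStatement876 Neat) :
    Fermat.Agent.S59.LoSqC.H301.NewOldStatement Neat := by
  intro N q p _ _ hq hfac hp hp2 hpq hneat
  refine ⟨{q}, Fermat.Agent.S37.H155.pullHom N q, Fermat.Agent.S36.H160.pullB N q,
    isPullPair876 N q hq, fun P hP S a ha => ?_⟩
  obtain ⟨Good, hlink, hW⟩ := h N q p hq hfac hp hp2 hpq hneat P hP S a ha
  exact newOldAt301_of_levelWall876 N q p hp.pos P S a Good hlink hW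

/-- **CORE-SQ at neat levels from the wall** (W-DESC + TOP-CORE of helper301). -/
theorem coreSqNeat_of_wall876 (Neat : ℕ → ℕ → Prop) (h : WallStatement876 Neat) :
    Fermat.Agent.S59.LoSqC.H301.CoreSqNeatStatement Neat :=
  Fermat.Agent.S59.LoSqC.H301.coreSqNeat_of_newOld Neat (newOldStatement_of_wall876 Neat h)

end Statement

end Fermat.Agent.S59.LoSqC.H876
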