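import Fermat.Agent.S59.LoSqC.Spec
import Fermat.Agent.S59.LoSqC.H876.WirePull

/-!
# S59 moonshot, cell (C) LO-SQ: TOP-CORE in the FROZEN shapes (helper876; plug of helper301's
`S59/LoSqC/H301/CoreNeat.lean` into `S59/LoSqC/Spec.lean` of helper885)

`coreSqNeat_of_newOld876 : LoSqC.NewOldStatement → LoSqC.CoreSqNeatStatement`  (VERBATIM types).

Proof: `N = M q` with `q ∤ M` and `Eng.NeatFor M q` (from `NeatN N q`, `q` odd); then
(W0) `H301.occursIn_of_not_isQNew` if `x` is not `q`-new, and NEW-OLD +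
ALG (`H301.occursIn_of_old`, pull pair `isPullPair876`) if it is.
-/

set_option autoImplicit false
set_option linter.style.haveILetI false
set_option linter.unusedSectionVars false
set_option synthInstance.maxHeartbeats 400000
set_option maxHeartbeats 1600000

noncomputable section

namespace Fermat.Agent.S59.LoSqC.H876

open AlgebraicCurve ModularCurve
open Fermat.Agent.S36 Fermat.Agent.S36.Eng
open Fermat.Agent.Ribet Fermat.Agent.Ribet.Spec Fermat.Agent.Ribet.H944.Wall
open Fermat.Agent.S59.LoSqC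

/-- `q ∥ M q` ⟹ `q ∤ M`. -/
theorem not_dvd_of_factorization_mul876 {M q : ℕ} (hq : q.Prime) (hM : M ≠ 0)
    (h : (M * q).factorization q = 1) : ¬ q ∣ M := by
  intro hd
  have h2 : q ^ 2 ∣ M * q := by
    rw [pow_two]
    exact Nat.mul_dvd_mul hd (dvd_refl q)
  have h3 := (hq.pow_dvd_iff_le_factorization (Nat.mul_ne_zero hM hq.ne_zero)).1 h2
  omega

/-- `NeatN (M q) q`, `q` odd ⟹ `Eng.NeatFor M q`. -/
theorem neatFor_of_neatN876 {M q : ℕ} (hq : q.Prime) (hq2 : q ≠ 2) (h : NeatN (M * q) q) :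
    NeatFor M q := by
  obtain ⟨⟨r, hr, hr12, hrq, hrd⟩, h4⟩ := h
  refine ⟨⟨r, hr, hr12, hrq, ?_⟩, fun _ => ?_, fun h2 => absurd h2 hq2⟩
  · rcases (Nat.Prime.dvd_mul hr).1 hrd with h1 | h1
    · exact h1
    · exact absurd ((Nat.prime_dvd_prime_iff_eq hr hq).1 h1) hrq
  · have hodd : Nat.Coprime 4 q := by
      have h2q : Nat.Coprime 2 q := by
        rw [Nat.coprime_primes Nat.prime_two hq]
        exact fun h => hq2 h.symm
      have : Nat.Coprime (2 ^ 2) q := Nat.Coprime.pow_left 2 h2q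
      simpa using this
    exact hodd.dvd_of_dvd_mul_right h4

/-- **TOP-CORE**, frozen types. -/
theorem coreSqNeat_of_newOld876 (h : NewOldStatement) : CoreSqNeatStatement := by
  intro N q p _ _ hq hq2 hfac hneat hp hp2 hpq P hP S a ha x hx hpx heig hfix
  -- `N = M q`
  have hqN : q ∣ N := by
    by_contra hnd
    rw [Nat.factorization_eq_zero_of_not_dvd hnd] at hfac
    exact zero_ne_one hfac
  obtain ⟨M, hM⟩ : ∃ M, N = M * q := by
    obtain ⟨c, hc⟩ := hqN
    exact ⟨c, by rw [hc, Nat.mul_comm]⟩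
  subst hM
  have hM0 : M ≠ 0 := fun h0 => by
    have := NeZero.ne (M * q)
    rw [h0, Nat.zero_mul] at this
    exact this rfl
  haveI : NeZero M := ⟨hM0⟩
  have hqM : ¬ q ∣ M := not_dvd_of_factorization_mul876 hq hM0 hfac
  have hNO : NewOldAt M q p P :=
    h M q p hq hqM (neatFor_of_neatN876 hq hq2 hneat) hq2 hp hp2 hpq P hP
  by_cases hnew : Fermat.Agent.S35.H155.IsQNew (M * q) q x
  · obtain ⟨y, y', hy, hy', hxy⟩ := hNO x hpx hnew hfix (fun _ => ⟨S, a, ha, heig⟩)
    exact ⟨S ∪ {q}, Finset.subset_union_left,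
      Fermat.Agent.S59.LoSqC.H301.occursIn_of_old hp.ne_zero (isPullPair876 (M * q) q hq)
        hx heig hy hy' hxy⟩
  · exact ⟨insert q S, Finset.subset_insert q S,
      Fermat.Agent.S59.LoSqC.H301.occursIn_of_not_isQNew hq hpx heig hnew⟩

end Fermat.Agent.S59.LoSqC.H876
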