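import Fermat.Agent.S59.LoSqC.Skel
import Fermat.Agent.S59.LoSqC.H876.DescW
import Fermat.Agent.S59.LoSqC.H876.TopCore

/-!
# S59 moonshot, cell (C) LO-SQ: the skeleton with W-DESC and (UNR) plugged (helper876)

`newOld_of_levelWall_slope876 : LevelWallStatement → SlopeJStatement → NewOldStatement`
(`Skel.newOld_of_leaves` with `descW` and `S36.Eng.H189.unramified_inertiaField`), and
`newOld_of_open876 : NewUnitsStatement → LeafCtx → LeafRealize → SlopeJStatement → NewOldStatement`
(with `Skel.levelWall_of_leaves`), and
`coreSqNeat_of_open876 : NewUnitsStatement → LeafCtx → LeafRealize → SlopeJStatement →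
CoreSqNeatStatement` (with `coreSqNeat_of_newOld876`).
-/

set_option autoImplicit false
set_option linter.style.haveILetI false

namespace Fermat.Agent.S59.LoSqC.H876

open Fermat.Agent.S59.LoSqC

/-- (UNR): the inertia field is an unramified good level. -/
theorem unr876 : ∀ q : ℕ, q.Prime → ∀ P : ValuationSubring Fermat.Agent.A2.Qb,
    P.LiesOverPrime q → Fermat.Agent.S36.Eng.Unramified P (inertiaFldC P) q :=
  fun q hq P hP => Fermat.Agent.S36.Eng.H189.unramified_inertiaField q hq P hP

/-- NEW-OLD from the level wall and the slope leaf. -/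
theorem newOld_of_levelWall_slope876 (hLW : LevelWallStatement) (hSl : SlopeJStatement) :
    NewOldStatement :=
  newOld_of_leaves unr876 descW hLW hSl

/-- NEW-OLD from the four open leaves of the frozen Spec. -/
theorem newOld_of_open876 (hNU : NewUnitsStatement) (hCtx : LeafCtx) (hRe : LeafRealize)
    (hSl : SlopeJStatement) : NewOldStatement :=
  newOld_of_levelWall_slope876 (levelWall_of_leaves hNU hCtx hRe) hSl

/-- CORE-SQ at neat levels from the four open leaves of the frozen Spec. -/
theorem coreSqNeat_of_open876 (hNU : NewUnitsStatement) (hCtx : LeafCtx) (hRe : LeafRealize)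
    (hSl : SlopeJStatement) : CoreSqNeatStatement :=
  coreSqNeat_of_newOld876 (newOld_of_open876 hNU hCtx hRe hSl)

end Fermat.Agent.S59.LoSqC.H876
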